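import Fermat.Agent.FirstInvariant.Average

/-!
# The divisors of the first invariant

A good prime has full `m`-torsion exactly for the divisors `m` of its first invariant, so the sum
of their number over the primes is the sum of the level counts, the levels beyond a bound being
negligible (Akbary–Ghioca).
-/

set_option autoImplicit false
set_option linter.style.haveILetI false

noncomputable section

open WeierstrassCurve FA.Frob Finset Filter FA.CyclicRed
open scoped WeierstrassCurve.Affine Classical Topology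

namespace FA.SplitCompleteSum

variable (W : WeierstrassCurve ℤ)

/-- The number of divisors of `#E(𝔽_p) / exponent`, `0` off the primes. -/
def invDivisors (p : ℕ) : ℕ :=
  if h : p.Prime then
    haveI := Fact.mk h
    (Nat.card (W.map (Int.castRingHom (ZMod p))).toAffine.Point /
      AddMonoid.exponent (W.map (Int.castRingHom (ZMod p))).toAffine.Point).divisors.card
  else 0

variable {W} (hΔ : W.Δ ≠ 0)

include hΔ in
theorem sum_invDivisors_eq (N : ℕ) :
    ∑ p ∈ fullCount W 1 N, invDivisors W p = ∑ m ∈ Icc 1 N, (fullCount W m N).card := by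
  simp only [fullCount, card_eq_sum_ones, sum_filter]
  rw [sum_comm (s := Icc 1 N)]
  refine sum_congr rfl fun p hp => ?_
  by_cases h : p.Prime ∧ p ∉ badPrimes W
  · obtain ⟨c, hc0, hcp, hinv, hiff⟩ := FA.FirstInvariant.exists_invariant hΔ h.1 h.2
    obtain ⟨hF, heq⟩ := (hinv c).2 rfl
    haveI := hF
    haveI := ratCurve_isElliptic W (l := p) (good_of_not_mem hΔ h.1 h.2).2
    haveI := FA.PointDiv.reductionMod_isElliptic W (good_of_not_mem hΔ h.1 h.2).2
    rw [if_pos ⟨h.1, h.2, (hiff 1 one_pos).2 (one_dvd c)⟩, invDivisors, dif_pos h.1, heq,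
      Nat.mul_div_cancel _ (Nat.pos_of_ne_zero AddMonoid.exponent_ne_zero_of_finite),
      card_eq_sum_ones, ← sum_filter]
    refine sum_congr (Finset.ext fun m => ?_) fun _ _ => rfl
    rw [Nat.mem_divisors, mem_filter, mem_Icc]
    have hpN := (mem_Icc.1 hp).2
    constructor
    · rintro ⟨hmc, -⟩
      have := Nat.le_of_dvd hc0 hmc
      exact ⟨⟨Nat.pos_of_dvd_of_pos hmc hc0, by omega⟩, h.1, h.2,
        (hiff m (Nat.pos_of_dvd_of_pos hmc hc0)).2 hmc⟩
    · rintro ⟨hm, -, -, hf⟩
      exact ⟨(hiff m hm.1).1 hf, hc0.ne'⟩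
  · rw [if_neg fun h' => h ⟨h'.1, h'.2.1⟩]
    exact (sum_eq_zero fun m _ => if_neg fun h' => h ⟨h'.1, h'.2.1⟩).symm

variable [(ratCurve W).IsElliptic] (hGRH : AllFieldsRH)

include hΔ hGRH

/-- **The sum of the level counts.** -/
theorem tendsto_sum_levels :
    Tendsto (fun N : ℕ => (∑ m ∈ Icc 1 N, ((fullCount W m N).card : ℝ)) * Real.log N / N) atTop
      (𝓝 (∑' m : ℕ, 1 / (degree W (m + 1) : ℝ))) := by
  have hsum := (summable_nat_add_iff 1).2 (FA.NearlyCyclic.summable_inv_degree hΔ hGRH)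
  rw [Metric.tendsto_nhds]
  intro ε hε
  obtain ⟨D, hD⟩ := FA.NearlyCyclic.exists_tail_sum_le hΔ hGRH (show (0 : ℝ) < ε / 4 by linarith)
  obtain ⟨z, hz, hzD⟩ := ((Metric.tendsto_nhds.1 hsum.hasSum.tendsto_sum_nat (ε / 4)
    (by linarith)).and (eventually_ge_atTop D)).exists
  have hfin : Tendsto (fun N : ℕ => ∑ m ∈ range z,
      ((fullCount W (m + 1) N).card : ℝ) * Real.log N / N) atTop
      (𝓝 (∑ m ∈ range z, 1 / (degree W (m + 1) : ℝ))) :=
    tendsto_finsetSum _ fun m _ => FA.FirstInvariant.tendsto_level hΔ hGRH m.succ_pos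
  filter_upwards [hD, Metric.tendsto_nhds.1 hfin (ε / 4) (by linarith), eventually_ge_atTop z]
    with N h1 h2 hN
  have hsplit : (∑ m ∈ Icc 1 N, ((fullCount W m N).card : ℝ)) =
      (∑ m ∈ range z, ((fullCount W (m + 1) N).card : ℝ)) +
        ∑ m ∈ Ioc z N, ((fullCount W m N).card : ℝ) := by
    rw [show Icc 1 N = Ioc 0 z ∪ Ioc z N by
      ext; simp only [mem_union, mem_Icc, mem_Ioc]; omega,
      sum_union (disjoint_left.2 fun d h1 h2 => (mem_Ioc.1 h2).1.not_ge (mem_Ioc.1 h1).2)]
    congr 1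
    rw [show Ioc 0 z = Ico 1 (z + 1) by ext; simp only [mem_Ico, mem_Ioc]; omega,
      sum_Ico_eq_sum_range, Nat.add_sub_cancel]
    exact sum_congr rfl fun m _ => by rw [add_comm]
  have htail : (∑ m ∈ Ioc z N, ((fullCount W m N).card : ℝ)) * (Real.log N / N) ≤ ε / 4 := by
    refine le_trans (mul_le_mul_of_nonneg_right (sum_le_sum_of_subset_of_nonneg
      (Ioc_subset_Ioc_left hzD) fun _ _ _ => Nat.cast_nonneg _)
      (div_nonneg (Real.log_natCast_nonneg N) (Nat.cast_nonneg N))) ?_
    rw [← mul_div_assoc]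
    exact h1
  have h0 : 0 ≤ (∑ m ∈ Ioc z N, ((fullCount W m N).card : ℝ)) * (Real.log N / N) :=
    mul_nonneg (sum_nonneg fun _ _ => Nat.cast_nonneg _)
      (div_nonneg (Real.log_natCast_nonneg N) (Nat.cast_nonneg N))
  rw [Real.dist_eq, abs_lt] at h2 hz ⊢
  rw [hsplit, mul_div_assoc, add_mul, sum_mul]
  simp only [mul_div_assoc] at h2
  constructor <;> linarith

/-- **The elliptic Titchmarsh divisor problem.** -/
theorem tendsto_sum_invDivisors :
    Tendsto (fun N : ℕ => (∑ p ∈ fullCount W 1 N, (invDivisors W p : ℝ)) / Nat.primeCounting N)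
      atTop (𝓝 (∑' m : ℕ, 1 / (degree W (m + 1) : ℝ))) := by
  refine (FA.FirstInvariant.tendsto_div_primeCounting hΔ hGRH
    (tendsto_sum_levels hΔ hGRH)).congr fun N => ?_
  rw [← Nat.cast_sum, ← Nat.cast_sum, sum_invDivisors_eq hΔ]

end FA.SplitCompleteSum

end
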